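/-
S55 / leaf 47-S2 (route R3, blueprint 19), ABSTRACT CORE (helper47).  Mathlib only.

The counting argument behind "the S-split Hilbert `p`-class field exists" in the form used by the
dualizing-module route:  `dim Cl_S(L)/p ≤ dim V_S(L)`.

* `finrank_le_of_isotropic` : an isotropic subspace of a (left-)nondegenerate bilinear space `W`
  has `2 * dim ≤ dim W`.
* `le_finrank_ker_of_isotropic` : `loc : B → W` with isotropic image, `dim W ≤ 2 d`, `d + c ≤ dim B`
  ⟹ `c ≤ dim ker loc`.
* `le_finrank_ker_of_isotropic_pi` : the same for `W = Π w, W w` with local pairings `β w` and the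
  "product formula" `∑ w, β w (loc w a) (loc w b) = 0`.
Complete proofs.
-/
import Mathlib

set_option autoImplicit false
set_option linter.unusedSectionVars false

open Module

namespace Fermat.Agent.S55.S2Hilbert47.Isotropy

variable {k : Type*} [Field k]

section Single

variable {W : Type*} [AddCommGroup W] [Module k W] [FiniteDimensional k W]

/-- In finite dimension a left-separating bilinear form is right-separating. -/
theorem separatingRight_of_separatingLeft (β : W →ₗ[k] W →ₗ[k] k) (hβ : β.SeparatingLeft) :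
    β.SeparatingRight := by
  have hinj : Function.Injective β := LinearMap.separatingLeft_iff_ker_eq_bot.mp hβ |>
    LinearMap.ker_eq_bot.mp
  -- `β : W → Dual W` is injective, hence bijective, hence its transpose `β.flip` is injective
  have hsurj : Function.Surjective β := by
    have h1 : finrank k W = finrank k (Dual k W) := (Subspace.dual_finrank_eq).symm
    exact (LinearMap.injective_iff_surjective_of_finrank_eq_finrank h1).mp hinj
  rw [LinearMap.separatingRight_iff_flip_ker_eq_bot, LinearMap.ker_eq_bot]
  intro y y' hyy'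
  -- `β x y = β x y'` for all `x`; every functional is some `β x`
  by_contra hne
  obtain ⟨f, hf⟩ : ∃ f : Dual k W, f (y - y') ≠ 0 := by
    by_contra hall
    push Not at hall
    exact hne (sub_eq_zero.mp ((Module.forall_dual_apply_eq_zero_iff k (y - y')).mp hall))
  obtain ⟨x, rfl⟩ := hsurj f
  apply hf
  have := congrArg (fun g : W →ₗ[k] k => g x) hyy'
  simp only [LinearMap.flip_apply] at this
  rw [map_sub, this, sub_self]

/-- An isotropic subspace of a nondegenerate bilinear space has at most half the dimension. -/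
theorem finrank_le_of_isotropic (β : W →ₗ[k] W →ₗ[k] k) (hβ : β.SeparatingLeft)
    (X : Submodule k W) (hX : ∀ x ∈ X, ∀ y ∈ X, β x y = 0) :
    2 * finrank k X ≤ finrank k W := by
  -- `ψ : W → Dual X`, `y ↦ (x ↦ β x y)` is surjective and kills `X`
  let ψ : W →ₗ[k] Dual k X := X.subtype.dualMap ∘ₗ β.flip
  have hψ : ∀ (y : W) (x : X), ψ y x = β (x : W) y := by
    intro y x
    rfl
  have hright := separatingRight_of_separatingLeft β hβ
  have hflip_inj : Function.Injective β.flip :=
    LinearMap.ker_eq_bot.mp (LinearMap.separatingRight_iff_flip_ker_eq_bot.mp hright)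
  have hflip_surj : Function.Surjective β.flip := by
    have h1 : finrank k W = finrank k (Dual k W) := (Subspace.dual_finrank_eq).symm
    exact (LinearMap.injective_iff_surjective_of_finrank_eq_finrank h1).mp hflip_inj
  have hψsurj : Function.Surjective ψ := by
    intro f
    -- extend `f` to `W`
    obtain ⟨g, hg⟩ := LinearMap.exists_extend f
    obtain ⟨y, hy⟩ := hflip_surj g
    refine ⟨y, ?_⟩
    ext x
    rw [hψ, ← LinearMap.flip_apply, hy, ← hg]
    rfl
  have hker : X ≤ LinearMap.ker ψ := by
    intro y hy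
    rw [LinearMap.mem_ker]
    ext x
    rw [hψ]
    exact hX x x.2 y hy
  have h1 := LinearMap.finrank_range_add_finrank_ker ψ
  rw [LinearMap.range_eq_top.mpr hψsurj, finrank_top, Subspace.dual_finrank_eq] at h1
  have h2 := Submodule.finrank_mono hker
  omega

variable {B : Type*} [AddCommGroup B] [Module k B] [FiniteDimensional k B]

/-- **Isotropy count.** -/
theorem le_finrank_ker_of_isotropic (β : W →ₗ[k] W →ₗ[k] k) (hβ : β.SeparatingLeft)
    (loc : B →ₗ[k] W) (hiso : ∀ a b, β (loc a) (loc b) = 0) {d c : ℕ}
    (hW : finrank k W ≤ 2 * d) (hB : d + c ≤ finrank k B) :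
    c ≤ finrank k (LinearMap.ker loc) := by
  have h1 := finrank_le_of_isotropic β hβ (LinearMap.range loc) (by
    rintro _ ⟨a, rfl⟩ _ ⟨b, rfl⟩
    exact hiso a b)
  have h2 := LinearMap.finrank_range_add_finrank_ker loc
  omega

end Single

section Pi

variable {ι : Type*} [Fintype ι] [DecidableEq ι] {W : ι → Type*} [∀ w, AddCommGroup (W w)]
  [∀ w, Module k (W w)] [∀ w, FiniteDimensional k (W w)]
  {B : Type*} [AddCommGroup B] [Module k B] [FiniteDimensional k B]

/-- the orthogonal sum of the local pairings -/
def sumForm (β : ∀ w, W w →ₗ[k] W w →ₗ[k] k) : (∀ w, W w) →ₗ[k] (∀ w, W w) →ₗ[k] k :=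
  ∑ w, ((β w).compl₁₂ (LinearMap.proj w) (LinearMap.proj w))

theorem sumForm_apply (β : ∀ w, W w →ₗ[k] W w →ₗ[k] k) (x y : ∀ w, W w) :
    sumForm β x y = ∑ w, β w (x w) (y w) := by
  simp [sumForm, LinearMap.sum_apply]

theorem sumForm_separatingLeft (β : ∀ w, W w →ₗ[k] W w →ₗ[k] k)
    (hβ : ∀ w, (β w).SeparatingLeft) : (sumForm β).SeparatingLeft := by
  intro x hx
  funext w
  apply hβ w
  intro y
  have := hx (Pi.single w y)
  rw [sumForm_apply, Finset.sum_eq_single w] at this
  · simpa using this
  · intro v _ hv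
    rw [Pi.single_eq_of_ne hv, map_zero]
  · intro h
    exact absurd (Finset.mem_univ w) h

/-- **Isotropy count, semi-local form**: local pairings `β w` on `W w` (`w ∈ S`), localisation maps
`loc w : B → W w`, product formula `∑ w, β w (loc w a) (loc w b) = 0`. -/
theorem le_finrank_ker_of_isotropic_pi (β : ∀ w, W w →ₗ[k] W w →ₗ[k] k)
    (hβ : ∀ w, (β w).SeparatingLeft) (loc : ∀ w, B →ₗ[k] W w)
    (hiso : ∀ a b, ∑ w, β w (loc w a) (loc w b) = 0) {d c : ℕ}
    (hW : ∑ w, finrank k (W w) ≤ 2 * d) (hB : d + c ≤ finrank k B) :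
    c ≤ finrank k (⨅ w, LinearMap.ker (loc w) : Submodule k B) := by
  have hker : LinearMap.ker (LinearMap.pi loc) = ⨅ w, LinearMap.ker (loc w) :=
    LinearMap.ker_pi loc
  rw [← hker]
  refine le_finrank_ker_of_isotropic (sumForm β) (sumForm_separatingLeft β hβ) (LinearMap.pi loc)
    (fun a b => ?_) (by rwa [Module.finrank_pi_fintype]) hB
  rw [sumForm_apply]
  exact hiso a b

end Pi

end Fermat.Agent.S55.S2Hilbert47.Isotropy
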